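import Fermat.Agent.S14.FI.LPhi

set_option autoImplicit false

/-!
# S14 / FIN-3: from the index statement to the first inequality (dual form)
-/

namespace Fermat.Agent.S14

open IsDedekindDomain NumberField Finset

variable {p : ℕ} [Fact p.Prime] {K M : Type*} [Field K] [NumberField K] [Field M] [NumberField M]
  [Algebra K M] {ζ y : K} {B : M} {τ : M ≃ₐ[K] M}

/-! ### norms at split places -/

lemma IsKummer.tauPl_pow_ne (h : IsKummer p ζ y B τ) {w : Pl M} (hw : tauPl K τ w ≠ w) {i : ℕ}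
    (hi0 : 0 < i) (hip : i < p) : tauPl K (τ ^ i) w ≠ w := by
  intro hfix
  apply hw
  have hp : p.Prime := Fact.out
  have hcop : Nat.Coprime i p := (Nat.coprime_of_lt_prime hi0.ne' hip hp).symm
  obtain ⟨j, -, hj⟩ := Nat.exists_mul_mod_eq_one_of_coprime hcop hp.one_lt
  have h1 : τ ^ (i * j) = τ := by
    conv_lhs => rw [← Nat.div_add_mod (i * j) p, hj, pow_add, pow_mul, h.tau_pow_p]
    simp
  have h2 : tauPl K (τ ^ (i * j)) w = w := by
    rw [pow_mul, tauPl_pow]
    exact Function.iterate_fixed hfix j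
  rwa [h1] at h2

lemma IsKummer.ord_norm_of_split (h : IsKummer p ζ y B τ) {w : Pl M} (hw : tauPl K τ w ≠ w) {z : M}
    (hz : z ≠ 0) (hz' : ∀ w' : Pl M, below K w' = below K w → w' ≠ w → ord w' z = 0) :
    ord (below K w) (Algebra.norm K z) = ord w z := by
  have hp : p.Prime := Fact.out
  have h1 := h.ram_mul_ord_norm_eq_sum w hz
  rw [(h.ram_resdeg_of_ne hw).1] at h1
  simp only [Nat.cast_one, one_mul] at h1
  rw [h1, Finset.sum_eq_single_of_mem 0 (mem_range.mpr hp.pos)]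
  · simp
  · intro i hi hi0
    have h3 := ord_tauPl_symm (τ ^ i).symm w z
    rw [AlgEquiv.symm_symm] at h3
    rw [← h3]
    apply hz' _ (below_tauPl _ w)
    intro hfix
    apply h.tauPl_pow_ne hw (Nat.pos_of_ne_zero hi0) (mem_range.mp hi)
    have h4 : tauPl K (τ ^ i) (tauPl K (τ ^ i).symm w) = w := by
      rw [← tauPl_mul]
      have : (τ ^ i) * (τ ^ i).symm = 1 := by
        ext x; simp
      rw [this, tauPl_one]
    rw [hfix] at h4
    exact h4

/-! ### additivity of `Lam` -/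

section Lam

variable {S : Finset (Pl K)} {ψ : Pl K → ZMod p}

lemma Lam_mul (hζ : IsPrimitiveRoot ζ p) (hy : y ≠ 0)
    (hramp : ∀ v, ¬ (p : ℤ) ∣ ord v y → ¬ Above p v) {g g' : K} (hg : g ≠ 0) (hg' : g' ≠ 0) :
    Lam p ζ y S ψ (g * g') = Lam p ζ y S ψ g + Lam p ζ y S ψ g' := by
  unfold Lam
  rw [← sum_add_distrib]
  apply sum_congr rfl
  intro v _
  rw [lphi_mul hζ hy (hramp v) hg hg']; ring

lemma Lam_one (hζ : IsPrimitiveRoot ζ p)
    (hramp : ∀ v, ¬ (p : ℤ) ∣ ord v y → ¬ Above p v) : Lam p ζ y S ψ 1 = 0 := by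
  unfold Lam
  apply sum_eq_zero
  intro v _
  rw [lphi_one hζ (hramp v)]; ring

lemma Lam_zpow (hζ : IsPrimitiveRoot ζ p) (hy : y ≠ 0)
    (hramp : ∀ v, ¬ (p : ℤ) ∣ ord v y → ¬ Above p v) {g : K} (hg : g ≠ 0) (n : ℤ) :
    Lam p ζ y S ψ (g ^ n) = n * Lam p ζ y S ψ g := by
  unfold Lam
  rw [mul_sum]
  apply sum_congr rfl
  intro v _
  rw [lphi_zpow hζ hy (hramp v) hg]; ring

lemma Lam_prod {ι : Type*} (hζ : IsPrimitiveRoot ζ p) (hy : y ≠ 0)
    (hramp : ∀ v, ¬ (p : ℤ) ∣ ord v y → ¬ Above p v) (s : Finset ι) (f : ι → K)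
    (hf : ∀ i ∈ s, f i ≠ 0) :
    Lam p ζ y S ψ (∏ i ∈ s, f i) = ∑ i ∈ s, Lam p ζ y S ψ (f i) := by
  classical
  induction s using Finset.induction_on with
  | empty => simpa using Lam_one hζ hramp
  | insert a s ha ih =>
    rw [prod_insert ha, sum_insert ha, Lam_mul hζ hy hramp (hf a (mem_insert_self a s))
      (prod_ne_zero_iff.mpr fun i hi => hf i (mem_insert_of_mem hi)),
      ih fun i hi => hf i (mem_insert_of_mem hi)]

lemma IsKummer.Lam_norm (h : IsKummer p ζ y B τ) (hp : p ≠ 2)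
    (hcl : ∀ v, UnramAt p ζ y v ∨ ¬ (p : ℤ) ∣ ord v y)
    (hramp : ∀ v, ¬ (p : ℤ) ∣ ord v y → ¬ Above p v) {z : M} (hz : z ≠ 0) :
    Lam p ζ y S ψ (Algebra.norm K z) = 0 := by
  classical
  unfold Lam
  apply sum_eq_zero
  intro v hv
  rw [nonsplit, mem_filter] at hv
  rw [h.lphi_norm hp (hcl v) (hramp v) hv.2 hz]; ring

end Lam

/-! ### the chosen generators of the places outside `S` -/

open Classical in
/-- An element with divisor `v` outside `S`. -/
noncomputable def gam {S : Finset (Pl K)} (hgen : GenCl S) (v : Pl K) : K :=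
  if hv : v ∈ S then 1 else (hgen v hv).choose

lemma gam_spec {S : Finset (Pl K)} (hgen : GenCl S) {v : Pl K} (hv : v ∉ S) :
    gam hgen v ≠ 0 ∧ ord v (gam hgen v) = 1 ∧ ∀ w, w ∉ S → w ≠ v → ord w (gam hgen v) = 0 := by
  unfold gam
  rw [dif_neg hv]
  exact (hgen v hv).choose_spec

/-- Every `g ≠ 0` is an `S`-unit times a product of the `gam v`. -/
lemma exists_sunit_decomp {S : Finset (Pl K)} (hgen : GenCl S) {g : K} (hg : g ≠ 0) :
    ∃ (s : Finset (Pl K)) (u : K), (∀ v ∈ s, v ∉ S) ∧ (∀ v, v ∉ S → v ∉ s → ord v g = 0) ∧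
      IsSUnit S u ∧ g = u * ∏ v ∈ s, gam hgen v ^ ord v g := by
  classical
  set s : Finset (Pl K) := (finite_support_ord hg).toFinset.filter (fun v => v ∉ S) with hs
  have hsS : ∀ v ∈ s, v ∉ S := fun v hv => (mem_filter.mp hv).2
  have hout : ∀ v, v ∉ S → v ∉ s → ord v g = 0 := by
    intro v hv hvs
    by_contra h0
    exact hvs (mem_filter.mpr ⟨by simpa using h0, hv⟩)
  have hP0 : ∀ v ∈ s, gam hgen v ^ ord v g ≠ 0 :=
    fun v hv => zpow_ne_zero _ (gam_spec hgen (hsS v hv)).1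
  have hP : ∏ v ∈ s, gam hgen v ^ ord v g ≠ 0 := prod_ne_zero_iff.mpr hP0
  refine ⟨s, g / ∏ v ∈ s, gam hgen v ^ ord v g, hsS, hout, ⟨div_ne_zero hg hP, ?_⟩, ?_⟩
  · intro w hw
    rw [ord_div w hg hP, ord_prod w s _ hP0]
    have h1 : ∀ v ∈ s, ord w (gam hgen v ^ ord v g) = if v = w then ord w g else 0 := by
      intro v hv
      rw [ord_zpow]
      by_cases hvw : v = w
      · subst hvw
        rw [(gam_spec hgen hw).2.1]; simp
      · rw [(gam_spec hgen (hsS v hv)).2.2 w hw (Ne.symm hvw)]; simp [hvw]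
    rw [sum_congr rfl h1, sum_ite_eq' s w]
    by_cases hws : w ∈ s
    · simp [hws]
    · simp [hws, hout w hw hws]
  · field_simp

/-! ### the function `m` -/

open Classical in
/-- The part of `m` outside `S`. -/
noncomputable def mOut (p : ℕ) (ζ y : K) {S : Finset (Pl K)} (hgen : GenCl S) (ψ : Pl K → ZMod p)
    (v : Pl K) : ZMod p :=
  if v ∈ S then 0 else - Lam p ζ y S ψ (gam hgen v)

open Classical in
/-- The part of `m` inside `S` (inert places). -/
noncomputable def mIn (p : ℕ) (ζ y : K) (S : Finset (Pl K)) (ψ : Pl K → ZMod p)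
    (v : Pl K) : ZMod p :=
  if v ∈ nonsplit p ζ y S ∧ (p : ℤ) ∣ ord v y then ψ v else 0

lemma pair_mOut (hζ : IsPrimitiveRoot ζ p) (hy : y ≠ 0)
    (hramp : ∀ v, ¬ (p : ℤ) ∣ ord v y → ¬ Above p v) {S : Finset (Pl K)} (hgen : GenCl S)
    {ψ : Pl K → ZMod p} (hΛ : ∀ u : K, IsSUnit S u → Lam p ζ y S ψ u = 0) {g : K} (hg : g ≠ 0) :
    pair (mOut p ζ y hgen ψ) g = - Lam p ζ y S ψ g := by
  classical
  obtain ⟨s, u, hsS, hout, hu, hgu⟩ := exists_sunit_decomp hgen hg
  have hP0 : ∀ v ∈ s, gam hgen v ^ ord v g ≠ 0 :=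
    fun v hv => zpow_ne_zero _ (gam_spec hgen (hsS v hv)).1
  rw [pair_eq_sum _ g s]
  · conv_rhs => rw [hgu]
    rw [Lam_mul hζ hy hramp hu.1 (prod_ne_zero_iff.mpr hP0), hΛ u hu, zero_add,
      Lam_prod hζ hy hramp s _ hP0, ← sum_neg_distrib]
    apply sum_congr rfl
    intro v hv
    rw [Lam_zpow hζ hy hramp (gam_spec hgen (hsS v hv)).1, mOut, if_neg (hsS v hv)]
    ring
  · intro v hv
    by_cases hvS : v ∈ S
    · right; simp [mOut, hvS]
    · left; exact hout v hvS hv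

lemma pair_mIn (S : Finset (Pl K)) (ψ : Pl K → ZMod p) (g : K) :
    pair (mIn p ζ y S ψ) g =
      ∑ v ∈ nonsplit p ζ y S, if (p : ℤ) ∣ ord v y then ψ v * lphi p ζ y v g else 0 := by
  classical
  rw [pair_eq_sum _ g (nonsplit p ζ y S)]
  · apply sum_congr rfl
    intro v hv
    by_cases hd : (p : ℤ) ∣ ord v y
    · simp only [mIn, hv, hd, and_self, if_true]
      rw [lphi_of_dvd hd]; ring
    · simp [mIn, hd]
  · intro v hv
    right
    simp [mIn, hv]

/-- The key formula. -/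
lemma pair_m (hζ : IsPrimitiveRoot ζ p) (hy : y ≠ 0)
    (hramp : ∀ v, ¬ (p : ℤ) ∣ ord v y → ¬ Above p v) {S : Finset (Pl K)} (hgen : GenCl S)
    {ψ : Pl K → ZMod p} (hΛ : ∀ u : K, IsSUnit S u → Lam p ζ y S ψ u = 0) {g : K} (hg : g ≠ 0) :
    pair (mOut p ζ y hgen ψ + mIn p ζ y S ψ) g =
      - ∑ v ∈ nonsplit p ζ y S, if (p : ℤ) ∣ ord v y then 0 else ψ v * tame p ζ y v g := by
  classical
  rw [pair_add_left _ _ hg, pair_mOut hζ hy hramp hgen hΛ hg, pair_mIn, Lam, ← sum_neg_distrib,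
    ← sum_neg_distrib, ← sum_add_distrib]
  apply sum_congr rfl
  intro v _
  by_cases hd : (p : ℤ) ∣ ord v y
  · simp [hd]
  · simp [hd, lphi_of_not_dvd hd]

/-- **FIN**: the first inequality in dual form, from the index statement. -/
theorem IsKummer.firstIneq_of_idx (h : IsKummer p ζ y B τ) (hp : p ≠ 2) (S : Finset (Pl K))
    (hgen : GenCl S) (hgenM : GenCl (fiberSet M S))
    (hcl : ∀ v, UnramAt p ζ y v ∨ ¬ (p : ℤ) ∣ ord v y)
    (hramp : ∀ v, ¬ (p : ℤ) ∣ ord v y → ¬ Above p v)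
    (hram : ∀ v, ¬ (p : ℤ) ∣ ord v y → v ∈ S) (hidx : IdxProp p ζ y M S) :
    ∃ m : Pl K → ZMod p, m ≠ 0 ∧ (∀ v, ¬ (p : ℤ) ∣ ord v y → m v = 0) ∧
      (∀ v, SplitAt p ζ y v → m v = 0) ∧
      (∀ γ : K, γ ≠ 0 → (∀ v, ¬ (p : ℤ) ∣ ord v y → LocPow p v 1 γ) → pair m γ = 0) := by
  classical
  have hy := h.y_ne_zero
  have hζ := h.prim
  have hpp : p.Prime := Fact.out
  obtain ⟨ψ, ⟨v₁, hv₁N, hv₁⟩, hΛ⟩ := h.exists_psi hp S hcl hramp hidx
  have hNS : ∀ v, v ∈ nonsplit p ζ y S → v ∈ S := fun v hv => (mem_filter.mp hv).1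
  refine ⟨mOut p ζ y hgen ψ + mIn p ζ y S ψ, ?_, ?_, ?_, ?_⟩
  · -- nonvanishing
    intro hm0
    by_cases hd : (p : ℤ) ∣ ord v₁ y
    · have := congrFun hm0 v₁
      simp [mOut, mIn, hNS v₁ hv₁N, hv₁N, hd] at this
      exact hv₁ this
    · obtain ⟨η, hη0, hηo, hηn⟩ := exists_not_locPow hpp hζ v₁ (hramp v₁ hd)
      obtain ⟨g, hg0, hg⟩ := exists_approx (nonsplit p ζ y S) (fun v => if v = v₁ then η else 1)
        (by intro v _; by_cases hv : v = v₁ <;> simp [hv, hη0]) 1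
      have hpm := pair_m hζ hy hramp hgen hΛ hg0
      rw [hm0, pair_zero_left, eq_comm, neg_eq_zero, sum_eq_single_of_mem v₁ hv₁N] at hpm
      · rw [if_neg hd] at hpm
        have hg1 := hg v₁ hv₁N
        rw [if_pos rfl] at hg1
        have hq0 : g / η ≠ 0 := div_ne_zero hg0 hη0
        have hqL : LocPow p v₁ 1 (g / η) := ⟨1, one_ne_zero, by simpa using hg1⟩
        have hqo : ord v₁ (g / η) = 0 :=
          ord_eq_zero_of_valuation_sub_one_lt v₁ (hg1.trans_lt (exp_neg_natCast_lt_one le_rfl))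
        have e : g = η * (g / η) := by field_simp
        have ht : tame p ζ y v₁ g = (ord v₁ y : ZMod p) * rs p ζ v₁ η := by
          rw [e, tame_mul hζ (hramp v₁ hd) hy hη0 hq0, tame_of_locPow hζ (hramp v₁ hd) hy hqL,
            add_zero, tame_of_unit hζ (hramp v₁ hd) hη0 hηo]
        rw [ht] at hpm
        have h1 : (ord v₁ y : ZMod p) ≠ 0 := by
          intro h0; exact hd ((ZMod.intCast_zmod_eq_zero_iff_dvd _ _).mp h0)
        have h2 : rs p ζ v₁ η ≠ 0 := by
          intro h0; exact hηn ((rs_eq_zero_iff hζ (hramp v₁ hd) hη0 hηo).mp h0)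
        exact (mul_ne_zero hv₁ (mul_ne_zero h1 h2)) hpm
      · intro v hv hne
        by_cases hdv : (p : ℤ) ∣ ord v y
        · simp [hdv]
        · rw [if_neg hdv]
          have hg1 := hg v hv
          rw [if_neg hne] at hg1
          have hL : LocPow p v 1 g := ⟨1, one_ne_zero, by simpa using hg1⟩
          rw [tame_of_locPow hζ (hramp v hdv) hy hL, mul_zero]
  · -- ramified places
    intro v hv
    simp [mOut, mIn, hram v hv, hv]
  · -- split places
    intro v hv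
    have hvN : v ∉ nonsplit p ζ y S := fun h' => (mem_filter.mp h').2 hv
    by_cases hvS : v ∈ S
    · simp [mOut, mIn, hvS, hvN]
    · have : Lam p ζ y S ψ (gam hgen v) = 0 := by
        obtain ⟨w, hw⟩ := exists_below_eq (M := M) v
        have hwS : w ∉ fiberSet M S := by rw [mem_fiberSet, hw]; exact hvS
        obtain ⟨z, hz0, hzw, hz⟩ := hgenM w hwS
        have hτ : tauPl K τ w ≠ w := h.tauPl_ne_of_splitAt w (by rw [hw]; exact hv)
        have hN0 : Algebra.norm K z ≠ 0 := by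
          have := h.finiteDimensional
          exact Algebra.norm_ne_zero_iff.mpr hz0
        have hNv : ord v (Algebra.norm K z) = 1 := by
          rw [← hw, h.ord_norm_of_split hτ hz0, hzw]
          intro w' hw' hne
          exact hz w' (by rw [mem_fiberSet, hw', hw]; exact hvS) hne
        have hNo : ∀ v', v' ∉ S → v' ≠ v → ord v' (Algebra.norm K z) = 0 := by
          intro v' hv' hne
          apply h.ord_norm_eq_zero hz0
          intro w' hw'
          apply hz w' (by rw [mem_fiberSet, hw']; exact hv')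
          rintro rfl
          exact hne (hw'.symm.trans hw)
        obtain ⟨hγ0, hγv, hγo⟩ := gam_spec hgen hvS
        have hu : IsSUnit S (Algebra.norm K z / gam hgen v) := by
          refine ⟨div_ne_zero hN0 hγ0, fun v' hv' => ?_⟩
          rw [ord_div v' hN0 hγ0]
          by_cases hne : v' = v
          · subst hne; rw [hNv, hγv]; ring
          · rw [hNo v' hv' hne, hγo v' hv' hne]; ring
        have e : Algebra.norm K z = (Algebra.norm K z / gam hgen v) * gam hgen v := by field_simp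
        have h1 := h.Lam_norm (S := S) (ψ := ψ) hp hcl hramp hz0
        rw [e, Lam_mul hζ hy hramp hu.1 hγ0, hΛ _ hu, zero_add] at h1
        exact h1
      simp [mOut, mIn, hvS, hvN, this]
  · -- reciprocity
    intro γ hγ hL
    rw [pair_m hζ hy hramp hgen hΛ hγ, neg_eq_zero]
    apply sum_eq_zero
    intro v _
    by_cases hd : (p : ℤ) ∣ ord v y
    · simp [hd]
    · rw [if_neg hd, tame_of_locPow hζ (hramp v hd) hy (hL v hd), mul_zero]

end Fermat.Agent.S14
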