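import Fermat.Agent.S14.KummerH90
import Fermat.Agent.S14.KummerPlaces
import Fermat.Agent.S14.SUnits

set_option autoImplicit false

/-!
# S14 / FI / H1: `H^1` of the `S`-units of a Kummer extension vanishes when `S` generates the class
group of the base and contains the ramified places
-/

namespace Fermat.Agent.S14

open IsDedekindDomain NumberField Finset

variable {p : ℕ} [Fact p.Prime] {K M : Type*} [Field K] [NumberField K] [Field M] [NumberField M]
  [Algebra K M] {ζ y : K} {B : M} {τ : M ≃ₐ[K] M}

namespace IsKummer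

/-- `N u = 1`, `u` an `S_M`-unit `⟹` `u = τ e / e` with `e` an `S_M`-unit. -/
theorem exists_sunit_of_norm_eq_one (h : IsKummer p ζ y B τ) (S : Finset (Pl K)) (hgen : GenCl S)
    (hunr : ∀ w : Pl M, below K w ∉ S → ram K w = 1) {u : M} (hu : IsSUnit (fiberSet M S) u)
    (hN : Algebra.norm K u = 1) : ∃ e : M, IsSUnit (fiberSet M S) e ∧ u = τ e / e := by
  classical
  obtain ⟨x, hx0, hux⟩ := h.hilbert90 hN
  have hτx0 : τ x ≠ 0 := (map_ne_zero _).2 hx0
  -- `ord_w x` is `τ`-invariant outside `S_M`
  have hinv : ∀ w : Pl M, below K w ∉ S → ord (tauPl K τ w) x = ord w x := by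
    intro w hw
    have h1 : ord (tauPl K τ w) u = 0 := by
      apply hu.2
      rw [mem_fiberSet, below_tauPl]
      exact hw
    rw [hux, ord_div _ hτx0 hx0, ord_tauPl] at h1
    omega
  have hinv' : ∀ (i : ℕ) (w : Pl M), below K w ∉ S → ord (tauPl K (τ ^ i) w) x = ord w x := by
    intro i
    induction i with
    | zero => intro w _; rw [pow_zero, tauPl_one]
    | succ i ih =>
      intro w hw
      rw [pow_succ', tauPl_mul, hinv _ (by rw [below_tauPl]; exact hw), ih w hw]
  have hconst : ∀ w w' : Pl M, below K w ∉ S → below K w = below K w' → ord w' x = ord w x := by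
    intro w w' hw hww'
    obtain ⟨i, -, rfl⟩ := h.exists_tau_pow_eq hww'
    exact hinv' i w hw
  -- the descended divisor
  choose W hW using fun v : Pl K => exists_below_eq (M := M) v
  obtain ⟨γ, hγ0, hγ1, hγ2⟩ := hgen.exists_ord_eq
    ((finite_support_ord hx0).toFinset.image (below K)) (fun v => ord (W v) x)
  have hγM : algebraMap K M γ ≠ 0 := (map_ne_zero _).2 hγ0
  refine ⟨x / algebraMap K M γ, ⟨div_ne_zero hx0 hγM, ?_⟩, ?_⟩
  · intro w hw
    rw [mem_fiberSet] at hw
    rw [ord_div _ hx0 hγM, ord_algebraMap, hunr w hw, Nat.cast_one, one_mul]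
    by_cases hs : below K w ∈ (finite_support_ord hx0).toFinset.image (below K)
    · rw [hγ1 _ hs hw, hconst w (W (below K w)) hw (hW _).symm, sub_self]
    · rw [hγ2 _ hw hs, sub_zero]
      by_contra hne
      apply hs
      rw [Finset.mem_image]
      exact ⟨w, by simpa using hne, rfl⟩
  · rw [map_div₀, AlgEquiv.commutes, hux]
    field_simp

end IsKummer

end Fermat.Agent.S14
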