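import Fermat.Agent.S14.KummerLocal

set_option autoImplicit false

/-!
# S14 / FI / RK: unit ranks and numbers of places in a Kummer extension
-/

namespace Fermat.Agent.S14

open IsDedekindDomain NumberField Finset

/-- A number field containing a primitive `p`-th root of unity, `p` odd, is totally complex. -/
lemma two_mul_rank_add_one {p : ℕ} [Fact p.Prime] {F : Type*} [Field F] [NumberField F] {ζ : F}
    (hζ : IsPrimitiveRoot ζ p) (hp : p ≠ 2) : 2 * (Units.rank F + 1) = Module.finrank ℚ F := by
  have hpp : p.Prime := Fact.out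
  have h2 : 2 < p := lt_of_le_of_ne hpp.two_le (Ne.symm hp)
  have h0 : InfinitePlace.nrRealPlaces F = 0 := NumberField.InfinitePlace.IsPrimitiveRoot.nrRealPlaces_eq_zero_of_two_lt h2 hζ
  have h1 := InfinitePlace.card_add_two_mul_card_eq_rank F
  have h3 := InfinitePlace.card_eq_nrRealPlaces_add_nrComplexPlaces F
  have h4 : 0 < Fintype.card (InfinitePlace F) := Fintype.card_pos
  unfold Units.rank
  omega

variable {p : ℕ} [Fact p.Prime] {K M : Type*} [Field K] [NumberField K] [Field M] [NumberField M]
  [Algebra K M] {ζ y : K} {B : M} {τ : M ≃ₐ[K] M}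

namespace IsKummer

theorem rank_add_one (h : IsKummer p ζ y B τ) (hp : p ≠ 2) :
    Units.rank M + 1 = p * (Units.rank K + 1) := by
  have h1 := two_mul_rank_add_one h.prim hp
  have h2 := two_mul_rank_add_one (h.prim.map_of_injective (algebraMap K M).injective) hp
  have h3 : Module.finrank ℚ K * Module.finrank K M = Module.finrank ℚ M :=
    Module.finrank_mul_finrank ℚ K M
  rw [h.finrank_eq, ← h1, ← h2] at h3
  have : 2 * (Units.rank M + 1) = 2 * (p * (Units.rank K + 1)) := by rw [← h3]; ring
  omega

open Classical in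
theorem card_fiberSet_eq (h : IsKummer p ζ y B τ) (S : Finset (Pl K))
    (hcl : ∀ v ∈ S, UnramAt p ζ y v ∨ ¬ (p : ℤ) ∣ ord v y) :
    (fiberSet M S).card = p * (S.filter fun v => SplitAt p ζ y v).card
      + (S.filter fun v => ¬ SplitAt p ζ y v).card := by
  rw [card_fiberSet, ← Finset.sum_filter_add_sum_filter_not S (fun v => SplitAt p ζ y v)]
  congr 1
  · rw [Finset.sum_congr rfl (g := fun _ => p), Finset.sum_const, smul_eq_mul, mul_comm]
    intro v hv
    exact h.card_fiber_of_splitAt (Finset.mem_filter.1 hv).2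
  · rw [Finset.sum_congr rfl (g := fun _ => 1), Finset.sum_const, smul_eq_mul, mul_one]
    intro v hv
    exact h.card_fiber_of_not_splitAt (hcl v (Finset.mem_filter.1 hv).1) (Finset.mem_filter.1 hv).2

end IsKummer

end Fermat.Agent.S14
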