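import Fermat.Agent.S14.HQ
import Fermat.Agent.S14.FI.Rank
import Fermat.Agent.S14.FI.H1

set_option autoImplicit false
set_option linter.unusedSectionVars false
set_option linter.unnecessarySimpa false

/-!
# S14 / FI / IDX: the norm index of `S`-units in a Kummer extension
-/

namespace Fermat.Agent.S14

open IsDedekindDomain NumberField Module

/-- Abstract index statement: `U` a f.g. abelian group with an automorphism `σ` of order `p`,
`H^1 = 0`, `rank U + (p-1) b = p rank U^σ + (p-1)`.  Then `[U^σ : N U] = p^(b-1)`, so any `n ≥ b`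
elements of `U^σ` have a product, with exponents not all divisible by `p`, which is a norm. -/
theorem exists_normHom_eq_prod {U : Type*} [CommGroup U] [Group.FG U] (p : ℕ) (hp : p.Prime)
    (σ : U →* U) (hσ : ∀ x, σ^[p] x = x)
    (hH1 : ∀ x, HQ.normHom p σ x = 1 → ∃ e, x = σ e / e) (b : ℕ)
    (hr : finrank ℤ (Additive U) + (p - 1) * b
      = p * finrank ℤ (Additive (HQ.divHom σ).ker) + (p - 1))
    {n : ℕ} (hn : b ≤ n) (x : Fin n → U) (hx : ∀ i, σ (x i) = x i) :
    ∃ e : Fin n → ℤ, (∃ i, ¬ (p : ℤ) ∣ e i) ∧ ∃ z : U, HQ.normHom p σ z = ∏ i, x i ^ e i := by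
  classical
  obtain ⟨hle, hle', h0, -, c, hc1, hc2⟩ := HQ.herbrand_mul p hp σ hσ
  set RK := finrank ℤ (Additive (HQ.divHom σ).ker) with hRK
  have h1 : (HQ.divHom σ).range.relIndex (HQ.normHom p σ).ker = 1 := by
    rw [Subgroup.relIndex_eq_one]
    intro x hx
    obtain ⟨e, he⟩ := hH1 x hx
    exact ⟨e, he.symm⟩
  rw [h1, one_mul] at hc2
  obtain ⟨p', rfl⟩ : ∃ p', p = p' + 1 := ⟨p - 1, by have := hp.pos; omega⟩
  have hp'0 : 0 < p' := by have := hp.two_le; omega
  simp only [Nat.add_sub_cancel] at hc1 hr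
  have hcb : c + b = RK + 1 := by
    rw [hc1] at hr
    have : p' * (c + b) = p' * (RK + 1) := by nlinarith
    exact Nat.eq_of_mul_eq_mul_left hp'0 this
  set I := (HQ.normHom (p' + 1) σ).range.relIndex (HQ.divHom σ).ker with hI
  have hIb : I * (p' + 1) = (p' + 1) ^ b := by
    have h2 : I * (p' + 1) * (p' + 1) ^ RK = (p' + 1) ^ b * (p' + 1) ^ RK := by
      calc I * (p' + 1) * (p' + 1) ^ RK = I * (p' + 1) ^ (RK + 1) := by ring
        _ = I * (p' + 1) ^ c * (p' + 1) ^ b := by rw [← hcb]; ring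
        _ = (p' + 1) ^ b * (p' + 1) ^ RK := by rw [hc2]; ring
    exact Nat.eq_of_mul_eq_mul_right (pow_pos (Nat.succ_pos _) _) h2
  have hIlt : I < (p' + 1) ^ n := by
    have h3 : (p' + 1) ^ b ≤ (p' + 1) ^ n := Nat.pow_le_pow_right (Nat.succ_pos _) hn
    have h4 : 0 < I := Nat.pos_of_ne_zero h0
    nlinarith
  -- pigeonhole
  set K' := (HQ.divHom σ).ker with hK'
  set H := (HQ.normHom (p' + 1) σ).range with hH
  have hxK : ∀ i, x i ∈ K' := fun i => (HQ.mem_ker_divHom σ _).2 (hx i)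
  have hfin : Finite (K' ⧸ H.subgroupOf K') := by
    apply Nat.finite_of_card_ne_zero
    exact h0
  let := Fintype.ofFinite (K' ⧸ H.subgroupOf K')
  let f : (Fin n → Fin (p' + 1)) → K' ⧸ H.subgroupOf K' := fun e =>
    QuotientGroup.mk (∏ i, (⟨x i, hxK i⟩ : K') ^ (e i : ℕ))
  have hcard : Fintype.card (K' ⧸ H.subgroupOf K') < Fintype.card (Fin n → Fin (p' + 1)) := by
    rw [Fintype.card_fun, Fintype.card_fin, Fintype.card_fin, ← Nat.card_eq_fintype_card]
    exact hIlt
  obtain ⟨e, e', hne, hee⟩ := Fintype.exists_ne_map_eq_of_card_lt f hcard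
  rw [QuotientGroup.eq, Subgroup.mem_subgroupOf] at hee
  obtain ⟨z, hz⟩ := hee
  refine ⟨fun i => ((e' i : ℕ) : ℤ) - ((e i : ℕ) : ℤ), ?_, z, ?_⟩
  · obtain ⟨i, hi⟩ := Function.ne_iff.1 hne
    refine ⟨i, ?_⟩
    intro hdvd
    apply hi
    have h5 := (e i).2
    have h6 := (e' i).2
    have h7 : ((e' i : ℕ) : ℤ) - ((e i : ℕ) : ℤ) = 0 := by
      apply Int.eq_zero_of_abs_lt_dvd hdvd
      rw [abs_lt]
      push_cast
      constructor <;> omega
    apply Fin.ext
    omega
  · have hcoe : ∀ e : Fin n → Fin (p' + 1),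
        ((∏ i, (⟨x i, hxK i⟩ : K') ^ (e i : ℕ) : K') : U) = ∏ i, x i ^ (e i : ℕ) := by
      intro e
      simp
    rw [hz, Subgroup.coe_mul, Subgroup.coe_inv, hcoe, hcoe]
    rw [← Finset.prod_inv_distrib, ← Finset.prod_mul_distrib]
    apply Finset.prod_congr rfl
    intro i _
    rw [zpow_sub, zpow_natCast, zpow_natCast, mul_comm]


lemma fi_arith (p rM rK a b : ℕ) (hp : 1 ≤ p) (h : rM + 1 = p * (rK + 1)) :
    rM + (p * a + b) + (p - 1) * b = p * (rK + (a + b)) + (p - 1) := by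
  obtain ⟨q, rfl⟩ : ∃ q, p = q + 1 := ⟨p - 1, by omega⟩
  simp only [Nat.add_sub_cancel]
  nlinarith

lemma finrank_additive_congr {A B : Type*} [CommGroup A] [CommGroup B] (e : A ≃* B) :
    finrank ℤ (Additive A) = finrank ℤ (Additive B) :=
  LinearEquiv.finrank_eq (MulEquiv.toAdditive e).toIntLinearEquiv

variable {p : ℕ} [Fact p.Prime] {K M : Type*} [Field K] [NumberField K] [Field M] [NumberField M]
  [Algebra K M] {ζ y : K} {B : M} {τ : M ≃ₐ[K] M}

lemma IsSUnit.map_aut {S : Finset (Pl K)} (τ : M ≃ₐ[K] M) {x : M}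
    (hx : IsSUnit (fiberSet M S) x) : IsSUnit (fiberSet M S) (τ x) := by
  refine ⟨(map_ne_zero _).2 hx.1, fun w hw => ?_⟩
  have h3 := ord_tauPl_symm τ.symm w x
  rw [AlgEquiv.symm_symm] at h3
  rw [← h3]
  apply hx.2
  rw [mem_fiberSet, below_tauPl]
  rwa [mem_fiberSet] at hw

lemma isSUnit_algebraMap_iff {S : Finset (Pl K)} (x : K) :
    IsSUnit (fiberSet M S) (algebraMap K M x) ↔ IsSUnit S x := by
  constructor
  · intro hx
    refine ⟨(map_ne_zero _).1 hx.1, fun v hv => ?_⟩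
    obtain ⟨w, rfl⟩ := exists_below_eq (M := M) v
    have h1 := hx.2 w (by rwa [mem_fiberSet])
    rw [ord_algebraMap] at h1
    have h2 : (ram K w : ℤ) ≠ 0 := by exact_mod_cast (ram_pos (K := K) w).ne'
    exact (mul_eq_zero.1 h1).resolve_left h2
  · intro hx
    refine ⟨(map_ne_zero _).2 hx.1, fun w hw => ?_⟩
    rw [ord_algebraMap, hx.2 _ (by rwa [mem_fiberSet] at hw), mul_zero]

namespace FI

/-- the action of `τ` on a `τ`-stable subgroup of `Mˣ`. -/
noncomputable def sig (τ : M ≃ₐ[K] M) (UM : Subgroup Mˣ)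
    (hst : ∀ x ∈ UM, Units.map (τ : M →* M) x ∈ UM) : UM →* UM :=
  ((Units.map (τ : M →* M)).comp UM.subtype).codRestrict UM (fun x => hst x x.2)

lemma coe_sig (τ : M ≃ₐ[K] M) (UM : Subgroup Mˣ)
    (hst : ∀ x ∈ UM, Units.map (τ : M →* M) x ∈ UM) (x : UM) :
    (((sig τ UM hst x : UM) : Mˣ) : M) = τ ((x : Mˣ) : M) := rfl

lemma coe_sig_iterate (τ : M ≃ₐ[K] M) (UM : Subgroup Mˣ)
    (hst : ∀ x ∈ UM, Units.map (τ : M →* M) x ∈ UM) (i : ℕ) (x : UM) :
    ((((sig τ UM hst)^[i] x : UM) : Mˣ) : M) = (τ ^ i) ((x : Mˣ) : M) := by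
  induction i with
  | zero => simp
  | succ i ih => rw [Function.iterate_succ_apply', coe_sig, ih, pow_succ', AlgEquiv.mul_apply]

lemma coe_normHom (τ : M ≃ₐ[K] M) (UM : Subgroup Mˣ)
    (hst : ∀ x ∈ UM, Units.map (τ : M →* M) x ∈ UM) (x : UM) :
    (((HQ.normHom p (sig τ UM hst) x : UM) : Mˣ) : M)
      = ∏ i ∈ Finset.range p, (τ ^ i) ((x : Mˣ) : M) := by
  rw [HQ.normHom_apply]
  have h1 : (((∏ i ∈ Finset.range p, (sig τ UM hst)^[i] x : UM) : Mˣ) : M)
      = ∏ i ∈ Finset.range p, ((((sig τ UM hst)^[i] x : UM) : Mˣ) : M) := by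
    have := map_prod ((Units.coeHom M).comp UM.subtype) (fun i => (sig τ UM hst)^[i] x)
      (Finset.range p)
    simpa using this
  rw [h1]
  exact Finset.prod_congr rfl fun i _ => coe_sig_iterate τ UM hst i x

end FI

namespace IsKummer

/-- IDX, relative to the `S`-unit theorem for `K` and `M`. -/
theorem exists_norm_eq_prod_of_rank (h : IsKummer p ζ y B τ) (hp : p ≠ 2) (S : Finset (Pl K))
    (hgen : GenCl S) (hcl : ∀ v, UnramAt p ζ y v ∨ ¬ (p : ℤ) ∣ ord v y)
    (hram : ∀ v, ¬ (p : ℤ) ∣ ord v y → v ∈ S)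
    (UK : Subgroup Kˣ) (hUK : ∀ x : Kˣ, x ∈ UK ↔ IsSUnit S (x : K))
    (UM : Subgroup Mˣ) (hUM : ∀ x : Mˣ, x ∈ UM ↔ IsSUnit (fiberSet M S) (x : M))
    (hFG : Group.FG UM)
    (hrK : finrank ℤ (Additive UK) = Units.rank K + S.card)
    (hrM : finrank ℤ (Additive UM) = Units.rank M + (fiberSet M S).card)
    (Sns : Finset (Pl K)) (hSns : ∀ v ∈ S, ¬ SplitAt p ζ y v → v ∈ Sns) {n : ℕ}
    (hn : Sns.card ≤ n) (u : Fin n → K) (hu : ∀ i, IsSUnit S (u i)) :
    ∃ e : Fin n → ℤ, (∃ i, ¬ (p : ℤ) ∣ e i) ∧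
      ∃ z : M, z ≠ 0 ∧ Algebra.norm K z = ∏ i, u i ^ e i := by
  classical
  have hpp : p.Prime := Fact.out
  have hst : ∀ x ∈ UM, Units.map (τ : M →* M) x ∈ UM := by
    intro x hx
    rw [hUM] at hx ⊢
    exact hx.map_aut τ
  set σ := FI.sig τ UM hst with hσdef
  have hσ : ∀ x, σ^[p] x = x := by
    intro x
    apply Subtype.ext
    apply Units.ext
    rw [FI.coe_sig_iterate, h.tau_pow_p, AlgEquiv.one_apply]
  have hunr : ∀ w : Pl M, below K w ∉ S → ram K w = 1 := by
    intro w hw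
    rcases hcl (below K w) with h1 | h1
    · exact h.ram_eq_one_of_unramAt w h1
    · exact absurd (hram _ h1) hw
  have hH1 : ∀ x, HQ.normHom p σ x = 1 → ∃ e, x = σ e / e := by
    intro x hx
    have h1 : algebraMap K M (Algebra.norm K ((x : Mˣ) : M)) = 1 := by
      rw [h.algebraMap_norm, ← FI.coe_normHom τ UM hst x, ← hσdef, hx]
      rfl
    have h2 : Algebra.norm K ((x : Mˣ) : M) = 1 := by
      apply (algebraMap K M).injective
      rw [h1, map_one]
    obtain ⟨e, he, hxe⟩ := h.exists_sunit_of_norm_eq_one S hgen hunr ((hUM _).1 x.2) h2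
    refine ⟨⟨Units.mk0 e he.1, (hUM _).2 he⟩, ?_⟩
    apply Subtype.ext
    apply Units.ext
    rw [Subgroup.coe_div, Units.val_div_eq_div_val, FI.coe_sig]
    exact hxe
  -- the fixed points are the `S`-units of `K`
  let ι : UK →* UM := ((Units.map (algebraMap K M : K →* M)).comp UK.subtype).codRestrict UM
    (fun x => (hUM _).2 ((isSUnit_algebraMap_iff _).2 ((hUK _).1 x.2)))
  have hιcoe : ∀ x : UK, (((ι x : UM) : Mˣ) : M) = algebraMap K M ((x : Kˣ) : K) := fun _ => rfl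
  have hιinj : Function.Injective ι := by
    intro a b hab
    apply Subtype.ext
    apply Units.ext
    apply (algebraMap K M).injective
    rw [← hιcoe, ← hιcoe, hab]
  have hιrange : ι.range = (HQ.divHom σ).ker := by
    ext x
    rw [HQ.mem_ker_divHom, MonoidHom.mem_range]
    constructor
    · rintro ⟨a, rfl⟩
      apply Subtype.ext
      apply Units.ext
      rw [FI.coe_sig, hιcoe, AlgEquiv.commutes]
    · intro hx
      have h1 : τ ((x : Mˣ) : M) = ((x : Mˣ) : M) := by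
        rw [← FI.coe_sig τ UM hst x, ← hσdef, hx]
      obtain ⟨a, ha⟩ := h.exists_of_tau_eq h1
      have ha' : IsSUnit S a := by
        rw [← isSUnit_algebraMap_iff (M := M), ha]
        exact (hUM _).1 x.2
      refine ⟨⟨Units.mk0 a ha'.1, (hUK _).2 ha'⟩, ?_⟩
      apply Subtype.ext
      apply Units.ext
      rw [hιcoe]
      exact ha
  have hrker : finrank ℤ (Additive (HQ.divHom σ).ker) = Units.rank K + S.card := by
    rw [← hrK, ← hιrange]
    exact (finrank_additive_congr (MonoidHom.ofInjective hιinj)).symm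
  set a := (S.filter fun v => SplitAt p ζ y v).card with ha
  set b := (S.filter fun v => ¬ SplitAt p ζ y v).card with hb
  have hab : S.card = a + b := (Finset.card_filter_add_card_filter_not _).symm
  have hr : finrank ℤ (Additive UM) + (p - 1) * b
      = p * finrank ℤ (Additive (HQ.divHom σ).ker) + (p - 1) := by
    rw [hrker, hrM, h.card_fiberSet_eq S (fun v _ => hcl v), hab]
    exact fi_arith p _ _ a b hpp.one_le (h.rank_add_one hp)
  have hbn : b ≤ n := by
    refine le_trans (Finset.card_le_card ?_) hn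
    intro v hv
    rw [Finset.mem_filter] at hv
    exact hSns v hv.1 hv.2
  let x : Fin n → UM := fun i => ι ⟨Units.mk0 (u i) (hu i).1, (hUK _).2 (hu i)⟩
  have hx : ∀ i, σ (x i) = x i := by
    intro i
    rw [← HQ.mem_ker_divHom, ← hιrange]
    exact ⟨_, rfl⟩
  obtain ⟨e, he, z, hz⟩ := exists_normHom_eq_prod p hpp σ hσ hH1 b hr hbn x hx
  refine ⟨e, he, ((z : Mˣ) : M), Units.ne_zero _, ?_⟩
  apply (algebraMap K M).injective
  rw [h.algebraMap_norm, ← FI.coe_normHom τ UM hst z, ← hσdef, hz, map_prod]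
  have := map_prod ((Units.coeHom M).comp UM.subtype) (fun i => x i ^ e i) Finset.univ
  simp only [MonoidHom.comp_apply, Subgroup.subtype_apply, Units.coeHom_apply] at this
  rw [this]
  apply Finset.prod_congr rfl
  intro i _
  rw [Subgroup.coe_zpow, Units.val_zpow_eq_zpow_val, map_zpow₀]
  rfl

end IsKummer

end Fermat.Agent.S14
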