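import Fermat.Agent.S14.FI.Tame
import Fermat.Agent.S14.KummerLocal
import Fermat.Agent.S14.SUnits

set_option autoImplicit false

/-!
# S14 / FIN-2: the local functionals `phi_v` killing norms; the functional `psi`
-/

namespace Fermat.Agent.S14

open IsDedekindDomain NumberField Finset

variable {p : ℕ} [Fact p.Prime] {K M : Type*} [Field K] [NumberField K] [Field M] [NumberField M]
  [Algebra K M] {ζ y : K} {B : M} {τ : M ≃ₐ[K] M}

open Classical in
/-- `ord_v mod p` at the unramified places, the tame symbol with `y` at the ramified places. -/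
noncomputable def lphi (p : ℕ) (ζ y : K) (v : Pl K) (g : K) : ZMod p :=
  if (p : ℤ) ∣ ord v y then ((ord v g : ℤ) : ZMod p) else tame p ζ y v g

lemma lphi_of_dvd {v : Pl K} (hv : (p : ℤ) ∣ ord v y) (g : K) :
    lphi p ζ y v g = ((ord v g : ℤ) : ZMod p) := by
  simp [lphi, hv]

lemma lphi_of_not_dvd {v : Pl K} (hv : ¬ (p : ℤ) ∣ ord v y) (g : K) :
    lphi p ζ y v g = tame p ζ y v g := by
  simp [lphi, hv]

lemma lphi_mul (hζ : IsPrimitiveRoot ζ p) (hy : y ≠ 0) {v : Pl K}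
    (hv : ¬ (p : ℤ) ∣ ord v y → ¬ Above p v) {g g' : K} (hg : g ≠ 0) (hg' : g' ≠ 0) :
    lphi p ζ y v (g * g') = lphi p ζ y v g + lphi p ζ y v g' := by
  by_cases h : (p : ℤ) ∣ ord v y
  · rw [lphi_of_dvd h, lphi_of_dvd h, lphi_of_dvd h, ord_mul v hg hg']; push_cast; ring
  · rw [lphi_of_not_dvd h, lphi_of_not_dvd h, lphi_of_not_dvd h, tame_mul hζ (hv h) hy hg hg']

lemma lphi_one (hζ : IsPrimitiveRoot ζ p) {v : Pl K}
    (hv : ¬ (p : ℤ) ∣ ord v y → ¬ Above p v) : lphi p ζ y v 1 = 0 := by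
  by_cases h : (p : ℤ) ∣ ord v y
  · rw [lphi_of_dvd h, ord_one]; simp
  · rw [lphi_of_not_dvd h, tame_one hζ (hv h)]

lemma lphi_zpow (hζ : IsPrimitiveRoot ζ p) (hy : y ≠ 0) {v : Pl K}
    (hv : ¬ (p : ℤ) ∣ ord v y → ¬ Above p v) {g : K} (hg : g ≠ 0) (n : ℤ) :
    lphi p ζ y v (g ^ n) = n * lphi p ζ y v g := by
  by_cases h : (p : ℤ) ∣ ord v y
  · rw [lphi_of_dvd h, lphi_of_dvd h, ord_zpow]; push_cast; ring
  · rw [lphi_of_not_dvd h, lphi_of_not_dvd h, tame_zpow hζ (hv h) hy hg]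

lemma lphi_prod {ι : Type*} (hζ : IsPrimitiveRoot ζ p) (hy : y ≠ 0) {v : Pl K}
    (hv : ¬ (p : ℤ) ∣ ord v y → ¬ Above p v) (s : Finset ι) (f : ι → K) (hf : ∀ i ∈ s, f i ≠ 0) :
    lphi p ζ y v (∏ i ∈ s, f i) = ∑ i ∈ s, lphi p ζ y v (f i) := by
  classical
  induction s using Finset.induction_on with
  | empty => simpa using lphi_one hζ hv
  | insert a s ha ih =>
    rw [prod_insert ha, sum_insert ha, lphi_mul hζ hy hv (hf a (mem_insert_self a s))
      (prod_ne_zero_iff.mpr fun i hi => hf i (mem_insert_of_mem hi)),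
      ih fun i hi => hf i (mem_insert_of_mem hi)]

/-- `phi_v` kills the norms from `M` at the non-split places. -/
lemma IsKummer.lphi_norm (h : IsKummer p ζ y B τ) (hp : p ≠ 2) {v : Pl K}
    (hcl : UnramAt p ζ y v ∨ ¬ (p : ℤ) ∣ ord v y) (hv : ¬ (p : ℤ) ∣ ord v y → ¬ Above p v)
    (hs : ¬ SplitAt p ζ y v) {z : M} (hz : z ≠ 0) : lphi p ζ y v (Algebra.norm K z) = 0 := by
  by_cases hd : (p : ℤ) ∣ ord v y
  · have hu : UnramAt p ζ y v := hcl.resolve_right (not_not.mpr hd)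
    rw [lphi_of_dvd hd]
    exact (ZMod.intCast_zmod_eq_zero_iff_dvd _ _).mpr (h.dvd_ord_norm_of_inert hu hs hz)
  · rw [lphi_of_not_dvd hd]
    obtain ⟨k, hk⟩ := h.exists_locPow_norm_mul_pow hp hd hz
    have hy := h.y_ne_zero
    have hN : Algebra.norm K z ≠ 0 := by
      have := h.finiteDimensional
      exact Algebra.norm_ne_zero_iff.mpr hz
    have := tame_of_locPow h.prim (hv hd) hy hk
    rw [tame_mul h.prim (hv hd) hy hN (pow_ne_zero _ hy), tame_pow h.prim (hv hd) hy hy,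
      tame_self h.prim (hv hd) hy] at this
    simpa using this

open Classical in
/-- The non-split places in `S`. -/
noncomputable def nonsplit (p : ℕ) (ζ y : K) (S : Finset (Pl K)) : Finset (Pl K) :=
  S.filter (fun v => ¬ SplitAt p ζ y v)

/-- The index statement coming from the Herbrand quotient of the `S`-units. -/
def IdxProp (p : ℕ) (ζ y : K) (M : Type*) [Field M] [Algebra K M] (S : Finset (Pl K)) : Prop :=
  ∀ n : ℕ, (nonsplit p ζ y S).card ≤ n → ∀ u : Fin n → K, (∀ i, IsSUnit S (u i)) →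
    ∃ e : Fin n → ℤ, (∃ i, ¬ (p : ℤ) ∣ e i) ∧
      ∃ z : M, z ≠ 0 ∧ Algebra.norm K z = ∏ i, u i ^ e i

/-- The global functional `Λ = ∑ ψ_v φ_v`. -/
noncomputable def Lam (p : ℕ) (ζ y : K) (S : Finset (Pl K)) (ψ : Pl K → ZMod p) (g : K) : ZMod p :=
  ∑ v ∈ nonsplit p ζ y S, ψ v * lphi p ζ y v g

/-- Existence of a nonzero `ψ` such that `Λ` kills the `S`-units. -/
theorem IsKummer.exists_psi (h : IsKummer p ζ y B τ) (hp : p ≠ 2) (S : Finset (Pl K))
    (hcl : ∀ v, UnramAt p ζ y v ∨ ¬ (p : ℤ) ∣ ord v y)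
    (hramp : ∀ v, ¬ (p : ℤ) ∣ ord v y → ¬ Above p v) (hidx : IdxProp p ζ y M S) :
    ∃ ψ : Pl K → ZMod p, (∃ v ∈ nonsplit p ζ y S, ψ v ≠ 0) ∧
      ∀ u : K, IsSUnit S u → Lam p ζ y S ψ u = 0 := by
  classical
  have hy := h.y_ne_zero
  have hζ := h.prim
  set N := nonsplit p ζ y S with hN
  -- the vector of local symbols
  let Φ : K → (N → ZMod p) := fun g v => lphi p ζ y v g
  let W : Submodule (ZMod p) (N → ZMod p) :=
    { carrier := {x | ∃ u : K, IsSUnit S u ∧ Φ u = x}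
      add_mem' := by
        rintro _ _ ⟨u, hu, rfl⟩ ⟨u', hu', rfl⟩
        refine ⟨u * u', ⟨mul_ne_zero hu.1 hu'.1, fun v hv => ?_⟩, ?_⟩
        · rw [ord_mul v hu.1 hu'.1, hu.2 v hv, hu'.2 v hv]; rfl
        · funext v
          exact lphi_mul hζ hy (hramp v) hu.1 hu'.1
      zero_mem' := by
        refine ⟨1, ⟨one_ne_zero, fun v _ => ord_one v⟩, ?_⟩
        funext v
        exact lphi_one hζ (hramp v)
      smul_mem' := by
        rintro c _ ⟨u, hu, rfl⟩
        refine ⟨u ^ (c.val : ℤ), ⟨zpow_ne_zero _ hu.1, fun v hv => ?_⟩, ?_⟩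
        · rw [ord_zpow, hu.2 v hv]; simp
        · funext v
          change lphi p ζ y v (u ^ (c.val : ℤ)) = c * lphi p ζ y v u
          rw [lphi_zpow hζ hy (hramp v) hu.1]
          simp }
  have hW : W < ⊤ := by
    rw [lt_top_iff_ne_top]
    intro htop
    have hall : ∀ i : N, ∃ u : K, IsSUnit S u ∧ Φ u = Pi.single i 1 := by
      intro i
      have : (Pi.single i 1 : N → ZMod p) ∈ W := by rw [htop]; trivial
      exact this
    choose u hu hΦ using hall
    let eqv : N ≃ Fin N.card := N.equivFin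
    obtain ⟨e, ⟨i₀, hi₀⟩, z, hz, hNz⟩ := hidx N.card le_rfl (fun j => u (eqv.symm j))
      (fun j => hu _)
    set v₀ : N := eqv.symm i₀ with hv₀
    have hns : ¬ SplitAt p ζ y (v₀ : Pl K) := by
      have h' : (v₀ : Pl K) ∈ nonsplit p ζ y S := v₀.2
      rw [nonsplit, mem_filter] at h'
      exact h'.2
    have h0 := h.lphi_norm hp (hcl v₀) (hramp v₀) hns hz
    rw [hNz, lphi_prod hζ hy (hramp v₀) _ _ (fun i _ => zpow_ne_zero _ (hu _).1)] at h0
    have h1 : ∀ j : Fin N.card, lphi p ζ y (v₀ : Pl K) (u (eqv.symm j) ^ e j) =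
        if j = i₀ then (e i₀ : ZMod p) else 0 := by
      intro j
      rw [lphi_zpow hζ hy (hramp v₀) (hu _).1]
      have h2 : lphi p ζ y (v₀ : Pl K) (u (eqv.symm j)) = (Pi.single (eqv.symm j) 1 : N → ZMod p) v₀ :=
        congrFun (hΦ (eqv.symm j)) v₀
      rw [h2]
      by_cases hj : j = i₀
      · subst hj; simp [hv₀]
      · have : v₀ ≠ eqv.symm j := by
          rw [hv₀]; intro h'; exact hj (eqv.symm.injective h').symm
        rw [Pi.single_eq_of_ne this]; simp [hj]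
    rw [sum_congr rfl (fun j _ => h1 j)] at h0
    simp only [sum_ite_eq', mem_univ, if_true] at h0
    exact hi₀ ((ZMod.intCast_zmod_eq_zero_iff_dvd _ _).mp h0)
  obtain ⟨f, hf0, hfW⟩ := W.exists_le_ker_of_lt_top hW
  refine ⟨fun v => if hv : v ∈ N then f (fun j => if (⟨v, hv⟩ : N) = j then 1 else 0) else 0, ?_, ?_⟩
  · by_contra hcon
    push Not at hcon
    apply hf0
    refine LinearMap.ext fun x => ?_
    rw [LinearMap.pi_apply_eq_sum_univ f x]
    simp only [LinearMap.zero_apply]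
    apply sum_eq_zero
    intro i _
    have := hcon i i.2
    simp only [i.2, dif_pos] at this
    rw [this, smul_zero]
  · intro u hu
    have h1 : f (Φ u) = 0 := hfW ⟨u, hu, rfl⟩
    rw [LinearMap.pi_apply_eq_sum_univ f (Φ u)] at h1
    unfold Lam
    rw [← hN, ← sum_coe_sort N]
    refine Eq.trans ?_ h1
    apply sum_congr rfl
    intro i _
    simp only [i.2, dif_pos, smul_eq_mul]
    rw [mul_comm]

end Fermat.Agent.S14
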