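import Fermat.Agent.S14.Symbol

set_option autoImplicit false

/-!
# S14 / FIN-1: the tame symbol `g ↦ rs_v (g ^ ord_v y / y ^ ord_v g)`
-/

namespace Fermat.Agent.S14

open IsDedekindDomain NumberField

variable {p : ℕ} [Fact p.Prime] {F : Type*} [Field F] [NumberField F]

/-- The tame symbol `(g, y)_v` (additive, up to sign). -/
noncomputable def tame (p : ℕ) (ζ y : F) (v : Pl F) (g : F) : ZMod p :=
  rs p ζ v (g ^ (ord v y) / y ^ (ord v g))

variable {ζ y : F} {v : Pl F}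

lemma tame_arg_ne_zero (hy : y ≠ 0) {g : F} (hg : g ≠ 0) :
    g ^ (ord v y) / y ^ (ord v g) ≠ 0 :=
  div_ne_zero (zpow_ne_zero _ hg) (zpow_ne_zero _ hy)

lemma ord_tame_arg (hy : y ≠ 0) {g : F} (hg : g ≠ 0) :
    ord v (g ^ (ord v y) / y ^ (ord v g)) = 0 := by
  rw [ord_div v (zpow_ne_zero _ hg) (zpow_ne_zero _ hy), ord_zpow, ord_zpow]; ring

lemma tame_mul (hζ : IsPrimitiveRoot ζ p) (hv : ¬ Above p v) (hy : y ≠ 0) {g g' : F} (hg : g ≠ 0)
    (hg' : g' ≠ 0) : tame p ζ y v (g * g') = tame p ζ y v g + tame p ζ y v g' := by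
  unfold tame
  rw [← rs_mul hζ hv (tame_arg_ne_zero hy hg) (ord_tame_arg hy hg) (tame_arg_ne_zero hy hg')
    (ord_tame_arg hy hg')]
  congr 1
  rw [ord_mul v hg hg', mul_zpow, zpow_add₀ hy]
  field_simp

lemma tame_one (hζ : IsPrimitiveRoot ζ p) (hv : ¬ Above p v) : tame p ζ y v 1 = 0 := by
  unfold tame
  rw [ord_one]
  simpa using rs_one hζ hv

lemma tame_self (hζ : IsPrimitiveRoot ζ p) (hv : ¬ Above p v) (hy : y ≠ 0) :
    tame p ζ y v y = 0 := by
  unfold tame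
  rw [div_self (zpow_ne_zero _ hy)]
  exact rs_one hζ hv

lemma tame_inv (hζ : IsPrimitiveRoot ζ p) (hv : ¬ Above p v) (hy : y ≠ 0) {g : F} (hg : g ≠ 0) :
    tame p ζ y v g⁻¹ = - tame p ζ y v g := by
  have h := tame_mul hζ hv hy hg (inv_ne_zero hg)
  rw [mul_inv_cancel₀ hg, tame_one hζ hv] at h
  exact eq_neg_of_add_eq_zero_right h.symm

lemma tame_pow (hζ : IsPrimitiveRoot ζ p) (hv : ¬ Above p v) (hy : y ≠ 0) {g : F} (hg : g ≠ 0)
    (n : ℕ) : tame p ζ y v (g ^ n) = n * tame p ζ y v g := by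
  induction n with
  | zero => simpa using tame_one hζ hv
  | succ n ih =>
    rw [pow_succ, tame_mul hζ hv hy (pow_ne_zero _ hg) hg, ih]; push_cast; ring

lemma tame_zpow (hζ : IsPrimitiveRoot ζ p) (hv : ¬ Above p v) (hy : y ≠ 0) {g : F} (hg : g ≠ 0)
    (n : ℤ) : tame p ζ y v (g ^ n) = n * tame p ζ y v g := by
  cases n with
  | ofNat n => simpa using tame_pow hζ hv hy hg n
  | negSucc n =>
    rw [zpow_negSucc, tame_inv hζ hv hy (pow_ne_zero _ hg), tame_pow hζ hv hy hg]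
    push_cast; ring

lemma tame_of_unit (hζ : IsPrimitiveRoot ζ p) (hv : ¬ Above p v) {g : F} (hg : g ≠ 0)
    (hg0 : ord v g = 0) : tame p ζ y v g = (ord v y : ZMod p) * rs p ζ v g := by
  unfold tame
  rw [hg0, zpow_zero, div_one, rs_zpow hζ hv hg hg0]

lemma tame_of_locPow (hζ : IsPrimitiveRoot ζ p) (hv : ¬ Above p v) (hy : y ≠ 0) {g : F}
    (h : LocPow p v 1 g) : tame p ζ y v g = 0 := by
  have hg : g ≠ 0 := h.ne_zero le_rfl
  obtain ⟨c, hc0, hc⟩ := h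
  -- `g = c ^ p * u` with `u` a principal unit
  have hu0 : g / c ^ p ≠ 0 := div_ne_zero hg (pow_ne_zero _ hc0)
  have hu : LocPow p v 1 (g / c ^ p) := ⟨1, one_ne_zero, by simpa using hc⟩
  have hlt : v.valuation F (g / c ^ p - 1) < 1 := hc.trans_lt (exp_neg_natCast_lt_one le_rfl)
  have hou : ord v (g / c ^ p) = 0 := ord_eq_zero_of_valuation_sub_one_lt v hlt
  have e : g = c ^ p * (g / c ^ p) := by field_simp
  rw [e, tame_mul hζ hv hy (pow_ne_zero _ hc0) hu0, tame_pow hζ hv hy hc0,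
    tame_of_unit hζ hv hu0 hou, (rs_eq_zero_iff hζ hv hu0 hou).mpr hu]
  simp

end Fermat.Agent.S14
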